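import Fermat.Agent.S41.Spec.New2
import Fermat.Agent.S29.H642.PeriodHecke

/-!
# Row S41, block NEW, leaf NEW-2c (helper881): the period map of a finite sum of slashes

`newPeriodSum : Spec.NewPeriodSumStatement`.  Same proof as `S29.H642.periodMap_heckeTLin`.
-/

set_option autoImplicit false

open CongruenceSubgroup ModularCurve ModularCurve.Period ModularFormClass UpperHalfPlane
open Matrix.SpecialLinearGroup
open Fermat.Agent.S29.H642
open scoped MatrixGroups ModularForm

namespace Fermat.Agent.S41.H881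

theorem newPeriodSum : Spec.NewPeriodSumStatement := by
  intro M' M _ _ f g ι _ ρ hdet hg γ σ k hk
  obtain ⟨F, hF⟩ := Fermat.Agent.S21.H381.exists_hasEquivariantPrimitive f
  obtain ⟨G, hG⟩ := Fermat.Agent.S21.H381.exists_hasEquivariantPrimitive g
  set FT : ℍ → ℂ := fun w => ∑ x : ι, F (ρ x • w) with hFT
  have hFTd : ∀ τ : ℍ, HasDerivAt (FT ∘ ofComplex) (g τ) ↑τ := by
    intro τ
    have h1 : (FT ∘ ofComplex) = fun z : ℂ => ∑ x : ι,
        ((fun w : ℍ => F (ρ x • w)) ∘ ofComplex) z := by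
      funext z
      simp [hFT]
    have h2 : g τ = ∑ x : ι, ((f : ℍ → ℂ) ∣[(2 : ℤ)] ρ x) τ := by
      have := congrFun hg τ
      rw [Finset.sum_apply] at this
      exact this
    rw [h1, h2]
    exact HasDerivAt.fun_sum fun x _ => hasDerivAt_comp_smul_GL hF.1 (ρ x) (hdet x) τ
  rw [Fermat.Agent.S21.H381.periodMap_apply hG γ UpperHalfPlane.I]
  have hconst := Fermat.Agent.S21.H381.sub_const_of_hasDerivAt hG.1 hFTd
    ((γ : SL(2, ℤ)) • UpperHalfPlane.I) UpperHalfPlane.I
  have hGF : G ((γ : SL(2, ℤ)) • UpperHalfPlane.I) - G UpperHalfPlane.I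
      = FT ((γ : SL(2, ℤ)) • UpperHalfPlane.I) - FT UpperHalfPlane.I := by
    linear_combination hconst
  rw [hGF, hFT]
  simp only
  have hterm : ∀ x : ι,
      F (ρ x • ((γ : SL(2, ℤ)) • UpperHalfPlane.I))
        = periodMap M' f (Additive.ofMul (k x)) + F (ρ (σ x) • UpperHalfPlane.I) := by
    intro x
    have e1 : ρ x • ((γ : SL(2, ℤ)) • UpperHalfPlane.I)
        = ((k x : Gamma0 M') : SL(2, ℤ)) • (ρ (σ x) • UpperHalfPlane.I) := by
      show ρ x • (mapGL ℝ (γ : SL(2, ℤ)) • UpperHalfPlane.I)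
        = mapGL ℝ ((k x : Gamma0 M') : SL(2, ℤ)) • (ρ (σ x) • UpperHalfPlane.I)
      rw [← mul_smul, ← mul_smul, hk x]
    rw [e1, Fermat.Agent.S21.H381.periodMap_apply hF (k x) (ρ (σ x) • UpperHalfPlane.I)]
    ring
  rw [Finset.sum_congr rfl fun x _ => hterm x, Finset.sum_add_distrib,
    Equiv.sum_comp σ (fun y => F (ρ y • UpperHalfPlane.I))]
  ring

end Fermat.Agent.S41.H881
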