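import Fermat.Agent.S41.Spec.New

/-!
# Row S41, block NEW, leaf NEW-2a (helper881): Mathlib's transfer in right coset representatives

* `transfer_eq_prod_reps` : for a finite-index subgroup `K ≤ G`, a system `s : ι → G` of
  representatives of the right cosets `K \ G`, and `g : G` with `s x * g = k x * s (σ x)`
  (`k x ∈ K`), one has `transfer ϕ g = ∏ x, ϕ (k x)`.
* `newTransferReps : Spec.NewTransferRepsStatement` (the same for `Spec.transferAlong`).
* `newTransferAdd : Spec.NewTransferAddStatement`.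
-/

set_option autoImplicit false

namespace Fermat.Agent.S41.H881

open Subgroup Subgroup.leftTransversals MulAction

section Generic

variable {G : Type*} [Group G] {K : Subgroup G} {ι : Type*}

/-- The bijection `ι ≃ G ⧸ K`, `x ↦ (s x)⁻¹ K`, attached to a system of representatives of the
right cosets `K \ G`. -/
noncomputable def repsEquiv (s : ι → G)
    (hinj : ∀ x y : ι, s x * (s y)⁻¹ ∈ K → x = y)
    (hsurj : ∀ g : G, ∃ x : ι, g * (s x)⁻¹ ∈ K) : ι ≃ G ⧸ K :=
  Equiv.ofBijective (fun x => (((s x)⁻¹ : G) : G ⧸ K)) (by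
    constructor
    · intro x y hxy
      apply hinj
      have := QuotientGroup.eq.mp hxy
      simpa using this
    · intro q
      induction q using QuotientGroup.induction_on with
      | H g' =>
        obtain ⟨x, hx⟩ := hsurj g'⁻¹
        refine ⟨x, ?_⟩
        apply QuotientGroup.eq.mpr
        have := K.inv_mem hx
        simpa using this)

theorem repsEquiv_apply (s : ι → G)
    (hinj : ∀ x y : ι, s x * (s y)⁻¹ ∈ K → x = y)
    (hsurj : ∀ g : G, ∃ x : ι, g * (s x)⁻¹ ∈ K) (x : ι) :
    repsEquiv s hinj hsurj x = (((s x)⁻¹ : G) : G ⧸ K) := rfl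

theorem finiteIndex_of_reps [Finite ι] (s : ι → G)
    (hinj : ∀ x y : ι, s x * (s y)⁻¹ ∈ K → x = y)
    (hsurj : ∀ g : G, ∃ x : ι, g * (s x)⁻¹ ∈ K) : K.FiniteIndex := by
  haveI : Finite (G ⧸ K) := Finite.of_equiv ι (repsEquiv s hinj hsurj)
  exact Subgroup.finiteIndex_of_finite_quotient

variable {A : Type*} [CommGroup A]

/-- **Transfer in right coset representatives.** -/
theorem transfer_eq_prod_reps [K.FiniteIndex] (ϕ : K →* A) [Fintype ι] (s : ι → G)
    (hinj : ∀ x y : ι, s x * (s y)⁻¹ ∈ K → x = y)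
    (hsurj : ∀ g : G, ∃ x : ι, g * (s x)⁻¹ ∈ K)
    (g : G) (σ : ι → ι) (k : ι → K) (hk : ∀ x : ι, s x * g = (k x : G) * s (σ x)) :
    MonoidHom.transfer ϕ g = ∏ x : ι, ϕ (k x) := by
  classical
  set e := repsEquiv s hinj hsurj with he
  set F : G ⧸ K → G := fun q => (s (e.symm q))⁻¹ with hF
  have hFq : ∀ q : G ⧸ K, ((F q : G) : G ⧸ K) = q := by
    intro q
    have := e.apply_symm_apply q
    rw [he, repsEquiv_apply] at this
    exact this
  set T : K.LeftTransversal := ⟨Set.range F, isComplement_range_left hFq⟩ with hT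
  have hTq : ∀ q : G ⧸ K, ((T.2.leftQuotientEquiv q : Set.range F) : G) = F q :=
    fun q => IsComplement.leftQuotientEquiv_apply hFq q
  have hact : ∀ x : ι, g⁻¹ • (e x) = e (σ x) := by
    intro x
    rw [he, repsEquiv_apply, repsEquiv_apply]
    show (((g⁻¹ * (s x)⁻¹ : G)) : G ⧸ K) = _
    apply QuotientGroup.eq.mpr
    have h1 : (g⁻¹ * (s x)⁻¹)⁻¹ * (s (σ x))⁻¹ = (k x : G) := by
      rw [mul_inv_rev, inv_inv, inv_inv, hk x, mul_assoc, mul_inv_cancel, mul_one]
    rw [h1]
    exact (k x).2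
  rw [MonoidHom.transfer_def ϕ T g]
  unfold diff
  simp only
  letI := K.fintypeQuotientOfFiniteIndex
  rw [← Equiv.prod_comp e]
  refine Finset.prod_congr rfl fun x _ => ?_
  congr 1
  apply Subtype.ext
  show ((T.2.leftQuotientEquiv (e x)) : G)⁻¹ *
      (((g • T).2.leftQuotientEquiv (e x)) : G) = (k x : G)
  rw [smul_apply_eq_smul_apply_inv_smul, hTq, hTq, hact x, hF]
  simp only [Equiv.symm_apply_apply, inv_inv, smul_eq_mul]
  rw [← mul_assoc, hk x, mul_assoc, mul_inv_cancel, mul_one]

end Generic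

/-- **NEW-2a.** -/
theorem newTransferReps : Spec.NewTransferRepsStatement := by
  intro H G _ _ A _ f hf ι _ s hinj hsurj ψ g σ k hk
  have hfin : f.range.FiniteIndex := finiteIndex_of_reps s hinj hsurj
  unfold Spec.transferAlong
  rw [dif_pos ⟨hf, hfin⟩]
  haveI := hfin
  have key := transfer_eq_prod_reps (K := f.range)
    ((AddMonoidHom.toMultiplicativeRight ψ).comp (MonoidHom.ofInjective hf).symm.toMonoidHom)
    s hinj hsurj g σ (fun x => ⟨f (k x), ⟨k x, rfl⟩⟩) hk
  show Multiplicative.toAdd (MonoidHom.transfer _ g) = _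
  rw [key]
  rw [toAdd_prod]
  refine Finset.sum_congr rfl fun x _ => ?_
  have hx : (MonoidHom.ofInjective hf).symm ⟨f (k x), ⟨k x, rfl⟩⟩ = k x := by
    apply (MonoidHom.ofInjective hf).injective
    rw [MulEquiv.apply_symm_apply]
    rfl
  simp only [MonoidHom.coe_comp, MulEquiv.coe_toMonoidHom, Function.comp_apply, hx]
  rfl

end Fermat.Agent.S41.H881
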