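import Fermat.Agent.S41.Spec.New
import Fermat.Agent.Lib.Newform.H683.Extract

/-!
# Row S41, block NEW, piece NEW-1 (helper881)

`newEigenformOfUsq : Spec.NewEigenformOfUsqStatement`: a nonzero cusp form of level `M`, `q ∣ M`,
which is an eigenvector of the `T_l` (`l ∈ P`, `l ∤ M`) with eigenvalues `b l` and satisfies
`U_q (U_q f) = f` gives a normalized eigenform `g` of level `M` with `a_l(g) = b l` (`l ∈ P`) and
`a_q(g) ^ 2 = 1`.  Pure linear algebra over the NEWFORM library (`H683`).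
-/

set_option autoImplicit false

open CongruenceSubgroup ModularFormClass ModularForm UpperHalfPlane

namespace Fermat.Agent.S41.H881

open Fermat.Agent.Lib.Newform.H683

variable {M : ℕ}

/-- The subspace of cusp forms of level `M` on which `U_q ^ 2 = 1`. -/
noncomputable def usqSub (M : ℕ) [NeZero M] {q : ℕ} (hqM : q ∣ M) :
    Submodule ℂ (CuspForm (Gamma0 M) 2) :=
  LinearMap.ker ((CuspForm.heckeULin 2 hqM : Module.End ℂ (CuspForm (Gamma0 M) 2)) *
    CuspForm.heckeULin 2 hqM - 1)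

theorem mem_usqSub [NeZero M] {q : ℕ} (hqM : q ∣ M) (v : CuspForm (Gamma0 M) 2) :
    v ∈ usqSub M hqM ↔ heckeU 2 q (heckeU 2 q ⇑v) = ⇑v := by
  rw [usqSub, LinearMap.mem_ker, LinearMap.sub_apply, sub_eq_zero, Module.End.mul_apply,
    Module.End.one_apply]
  constructor
  · intro h
    have := congrArg (fun g : CuspForm (Gamma0 M) 2 => (⇑g : ℍ → ℂ)) h
    simpa using this
  · intro h
    apply DFunLike.coe_injective
    simpa using h

theorem usqSub_stable [NeZero M] {q : ℕ} (hq : q.Prime) (hqM : q ∣ M) (p : Nat.Primes)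
    (v : CuspForm (Gamma0 M) 2) (hv : v ∈ usqSub M hqM) :
    heckeFamily M p v ∈ usqSub M hqM := by
  have hcm : Commute (heckeFamily M p) (CuspForm.heckeULin 2 hqM) := by
    have := heckeFamily_commute (M := M) p ⟨q, hq⟩
    rwa [heckeFamily_of_dvd ⟨q, hq⟩ hqM] at this
  have h2 : Commute (heckeFamily M p)
      ((CuspForm.heckeULin 2 hqM : Module.End ℂ (CuspForm (Gamma0 M) 2)) *
        CuspForm.heckeULin 2 hqM - 1) :=
    (hcm.mul_right hcm).sub_right (Commute.one_right _)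
  rw [usqSub, LinearMap.mem_ker] at hv ⊢
  have := congrArg (fun f : Module.End ℂ (CuspForm (Gamma0 M) 2) => f v) h2.eq
  simp only [Module.End.mul_apply] at this
  rw [hv, map_zero] at this
  exact this.symm

/-- **NEW-1.** -/
theorem newEigenformOfUsq : Spec.NewEigenformOfUsqStatement := by
  intro M q _ hq hqM P b f hf hT hU
  haveI := finiteDimensional_cuspForm M 2
  have hfE : f ∈ eigenSub M P b ⊓ usqSub M hqM := ⟨hT, (mem_usqSub hqM f).2 hU⟩
  have hE : eigenSub M P b ⊓ usqSub M hqM ≠ ⊥ := by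
    intro hbot
    rw [hbot] at hfE
    exact hf (by simpa using hfE)
  obtain ⟨g₀, hg₀E, hg₀, hg₀eig⟩ := exists_common_eigenvector (heckeFamily M)
    heckeFamily_commute (eigenSub M P b ⊓ usqSub M hqM) hE
    (fun p v hv => ⟨eigenSub_stable P b p v hv.1, usqSub_stable hq hqM p v hv.2⟩)
  have hT' : ∀ p : ℕ, p.Prime → ¬ p ∣ M → ∃ c : ℂ, heckeT 2 p ⇑g₀ = c • ⇑g₀ := by
    intro p hp hpM
    obtain ⟨c, hc⟩ := hg₀eig ⟨p, hp⟩
    rw [heckeFamily_of_not_dvd ⟨p, hp⟩ hpM] at hc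
    refine ⟨c, ?_⟩
    have := congrArg (fun g : CuspForm (Gamma0 M) 2 => (⇑g : ℍ → ℂ)) hc
    simpa using this
  have hU' : ∀ p : ℕ, p.Prime → p ∣ M → ∃ c : ℂ, heckeU 2 p ⇑g₀ = c • ⇑g₀ := by
    intro p hp hpM
    obtain ⟨c, hc⟩ := hg₀eig ⟨p, hp⟩
    rw [heckeFamily_of_dvd ⟨p, hp⟩ hpM] at hc
    refine ⟨c, ?_⟩
    have := congrArg (fun g : CuspForm (Gamma0 M) 2 => (⇑g : ℍ → ℂ)) hc
    simpa using this
  have h1 : qCoeff ⇑g₀ 1 ≠ 0 := fun h0 =>
    hg₀ (eq_zero_of_eigen_of_coeff_one_eq_zero g₀ hT' hU' h0)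
  set c₀ : ℂ := (qCoeff ⇑g₀ 1)⁻¹ with hc₀
  have hc₀ne : c₀ ≠ 0 := inv_ne_zero h1
  have hmem : c₀ • g₀ ∈ eigenSub M P b ⊓ usqSub M hqM := Submodule.smul_mem _ _ hg₀E
  have hnorm : (c₀ • g₀).IsNormalizedEigenform := by
    apply isNormalizedEigenform_of_eigen
    · rw [qCoeff_smul_cusp, hc₀, inv_mul_cancel₀ h1]
    · intro p hp hpM
      obtain ⟨c, hc⟩ := hT' p hp hpM
      exact ⟨c, by rw [FunLike.coe_smul, heckeT_smul, hc, smul_comm]⟩
    · intro p hp hpM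
      obtain ⟨c, hc⟩ := hU' p hp hpM
      exact ⟨c, by rw [FunLike.coe_smul, heckeU_smul, hc, smul_comm]⟩
  refine ⟨c₀ • g₀, hnorm, ?_, ?_⟩
  · intro ℓ hℓ hℓM hPℓ
    have := eigenvalue_T_eq_coeff (c₀ • g₀)
      (by rw [qCoeff_smul_cusp, hc₀, inv_mul_cancel₀ h1]) hℓ (b ℓ) (hmem.1 ℓ hℓ hℓM hPℓ)
    exact this.symm
  · have hUU := (mem_usqSub hqM (c₀ • g₀)).1 hmem.2
    have hUg := heckeU_eq_of_eigenform hnorm hq hqM
    rw [hUg, heckeU_smul, hUg, smul_smul] at hUU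
    have hgne : (⇑(c₀ • g₀) : ℍ → ℂ) ≠ 0 := by
      intro h0
      have : c₀ • g₀ = 0 := DFunLike.coe_injective (by rw [h0]; rfl)
      rcases smul_eq_zero.mp this with h | h
      · exact hc₀ne h
      · exact hg₀ h
    have h2 : (qCoeff ⇑(c₀ • g₀) q * qCoeff ⇑(c₀ • g₀) q - 1) • (⇑(c₀ • g₀) : ℍ → ℂ) = 0 := by
      rw [sub_smul, one_smul, hUU, sub_self]
    rcases smul_eq_zero.mp h2 with h | h
    · show qCoeff ⇑(c₀ • g₀) q ^ 2 = 1
      rw [pow_two]
      exact sub_eq_zero.mp h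
    · exact absurd h hgne

end Fermat.Agent.S41.H881
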