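import Fermat.Agent.S41.Spec.New2

/-!
# Row S41, block NEW: `NewPeriodTraceStatement` from its two sides (helper881)
-/

set_option autoImplicit false

open CongruenceSubgroup ModularCurve ModularCurve.Period ModularFormClass UpperHalfPlane
open scoped MatrixGroups ModularForm

namespace Fermat.Agent.S41.H881

theorem newPeriodTrace_of (h₁ : Spec.NewPeriodTraceOneStatement)
    (h₂ : Spec.NewPeriodTraceTwoStatement) : Spec.NewPeriodTraceStatement := by
  intro N q hN hq hqN f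
  obtain ⟨A, hA⟩ := Fermat.Agent.Lib.Newform.H923.exists_isAL (q := q) (M := N) hq.ne_zero
    ((Nat.Prime.coprime_iff_not_dvd hq).mpr hqN)
  obtain ⟨g₁, hg₁, hP₁⟩ := h₁ N q hN hq hqN f A hA
  obtain ⟨g₂, hg₂, hP₂⟩ := h₂ N q hN hq hqN f A hA
  exact ⟨(⇑f : ℍ → ℂ) ∣[(2 : ℤ)] A, g₁, g₂, hg₁, hg₂, hP₁, hP₂⟩

end Fermat.Agent.S41.H881
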