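import Fermat.Agent.S41.Spec.New

/-!
# Row S41, block NEW, leaf NEW-3c (helper881): additivity of the transfers

`transferAlong_add` (generic) and `newTransferAdd : Spec.NewTransferAddStatement`.
-/

set_option autoImplicit false

namespace Fermat.Agent.S41.H881

open Subgroup Subgroup.leftTransversals

theorem transfer_mul_h881 {G : Type*} [Group G] {K : Subgroup G} [K.FiniteIndex] {A : Type*}
    [CommGroup A] (ϕ ϕ' : K →* A) (g : G) :
    MonoidHom.transfer (ϕ * ϕ') g = MonoidHom.transfer ϕ g * MonoidHom.transfer ϕ' g := by
  rw [MonoidHom.transfer_def (ϕ * ϕ') default, MonoidHom.transfer_def ϕ default,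
    MonoidHom.transfer_def ϕ' default]
  unfold diff
  simp only [MonoidHom.mul_apply]
  exact Finset.prod_mul_distrib

theorem transferAlong_add {H G : Type*} [Group H] [Group G] {A : Type*} [AddCommGroup A]
    (f : H →* G) (ψ ψ' : Additive H →+ A) :
    Spec.transferAlong f (ψ + ψ') = Spec.transferAlong f ψ + Spec.transferAlong f ψ' := by
  unfold Spec.transferAlong
  by_cases h : Function.Injective f ∧ f.range.FiniteIndex
  · rw [dif_pos h, dif_pos h, dif_pos h]
    haveI := h.2
    refine AddMonoidHom.ext fun g => ?_
    have e : (AddMonoidHom.toMultiplicativeRight (ψ + ψ')).comp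
          (MonoidHom.ofInjective h.1).symm.toMonoidHom
        = (AddMonoidHom.toMultiplicativeRight ψ).comp (MonoidHom.ofInjective h.1).symm.toMonoidHom *
          (AddMonoidHom.toMultiplicativeRight ψ').comp
            (MonoidHom.ofInjective h.1).symm.toMonoidHom := by
      ext x
      rfl
    have key := transfer_mul_h881
      ((AddMonoidHom.toMultiplicativeRight ψ).comp (MonoidHom.ofInjective h.1).symm.toMonoidHom)
      ((AddMonoidHom.toMultiplicativeRight ψ').comp (MonoidHom.ofInjective h.1).symm.toMonoidHom)
      (Additive.toMul g)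
    rw [← e] at key
    exact congrArg Multiplicative.toAdd key
  · rw [dif_neg h, dif_neg h, dif_neg h, add_zero]

/-- **NEW-3c.** -/
theorem newTransferAdd : Spec.NewTransferAddStatement := by
  intro N q ψ ψ'
  exact ⟨transferAlong_add _ ψ ψ', transferAlong_add _ ψ ψ'⟩

end Fermat.Agent.S41.H881
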