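import Fermat.Agent.S41.H881.NewAssembly
import Fermat.Agent.S41.H881.EigenOfUsq
import Fermat.Agent.S41.H881.PeriodTraceGlue
import Fermat.Agent.S41.H881.TransferAdd
import Fermat.Agent.S41.H527.Main
import Fermat.Agent.S41.H335.PeriodTraceTwoMain
import Fermat.Agent.S41.H924.NewInvolution
import Fermat.Agent.S41.H576.InvolutionHecke

/-!
# Row S41, block NEW — CLOSED (sub-architect helper881)

`newBlock : Spec.NewStatement`, unconditional.  Leaves: `H881.newEigenformOfUsq` (NEW-1),
`H527.newPeriodTraceOne`, `H335.newPeriodTraceTwo` (NEW-2, over `H881.newPeriodSum`,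
`H881.newTransferReps`), `H924.newInvolution` (NEW-3a), `H576.newInvolutionHecke` (NEW-3b),
`H881.newTransferAdd` (NEW-3c); assembly `H881.new_of` (S21 + `S29.H642.periodMap_heckeTLin`).
-/

set_option autoImplicit false

namespace Fermat.Agent.S41.H881

/-- **Block NEW**, unconditional. -/
theorem newBlock : Spec.NewStatement :=
  new_of newEigenformOfUsq
    (newPeriodTrace_of Fermat.Agent.S41.H527.newPeriodTraceOne
      Fermat.Agent.S41.H335.newPeriodTraceTwo)
    Fermat.Agent.S41.H924.newInvolution Fermat.Agent.S41.H576.newInvolutionHecke newTransferAdd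

end Fermat.Agent.S41.H881
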