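import Fermat.Agent.S41.Spec.New
import Fermat.Agent.S21.Glue
import Fermat.Agent.S29.H642.PeriodHecke

/-!
# Row S41, block NEW, assembly (helper881)

`new_of`: the main statement `Spec.NewStatement` of block NEW from its leaves
(`NewEigenformOfUsqStatement`, `NewPeriodTraceStatement`, `NewInvolutionStatement`,
`NewInvolutionHeckeStatement`, `NewTransferAddStatement`), using S21 (Eichler–Shimura, on main)
and `periodMap_heckeTLin` (S29/H642, on main).
-/

set_option autoImplicit false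

open CongruenceSubgroup ModularCurve ModularCurve.Period ModularFormClass ModularForm
  UpperHalfPlane
open Fermat.Agent.S29.H642

namespace Fermat.Agent.S41.H881

/-- Transport of `periodHomPair` along an additive operator `X` on characters which commutes with
the involution `ι` and corresponds to `f ↦ g` on cusp forms under the period map. -/
theorem pair_transport {M M' : ℕ} [NeZero M] [NeZero M']
    (X : (Additive (Gamma0 M) →+ ℂ) → (Additive (Gamma0 M') →+ ℂ))
    (hXadd : ∀ a b, X (a + b) = X a + X b)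
    (hXι : ∀ a, X (charInvolution M ℂ ℂ a) = charInvolution M' ℂ ℂ (X a))
    (f₁ f₂ : CuspForm (Gamma0 M) 2) (g₁ g₂ : CuspForm (Gamma0 M') 2)
    (h₁ : X (periodMap M f₁) = periodMap M' g₁) (h₂ : X (periodMap M f₂) = periodMap M' g₂) :
    X (periodHomPair M (f₁, f₂)) = periodHomPair M' (g₁, g₂) := by
  have hX0 : X 0 = 0 := by
    have := hXadd 0 0
    rw [add_zero] at this
    exact left_eq_add.mp this
  have hXneg : ∀ a, X (-a) = - X a := by
    intro a
    have := hXadd a (-a)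
    rw [add_neg_cancel, hX0] at this
    exact eq_neg_of_add_eq_zero_right this.symm
  have hXsub : ∀ a b, X (a - b) = X a - X b := by
    intro a b
    rw [sub_eq_add_neg, hXadd, hXneg, ← sub_eq_add_neg]
  rw [Fermat.Agent.S21.H381.periodHomPair_apply, Fermat.Agent.S21.H381.periodHomPair_apply,
    hXadd, hXadd, hXsub, hXι, hXι, h₁, h₂]

/-- From the two trace formulas: if both traces vanish then `U_q (U_q f) = f`. -/
theorem usq_of_traces {q : ℕ} (f W g g' : ℍ → ℂ) (hg : g = f + heckeU 2 q W)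
    (hg' : g' = W + heckeU 2 q f) (h0 : g = 0) (h0' : g' = 0) :
    heckeU 2 q (heckeU 2 q f) = f := by
  have a1 : f + heckeU 2 q W = 0 := by rw [← hg, h0]
  have a2 : W + heckeU 2 q f = 0 := by rw [← hg', h0']
  have a3 : W = - heckeU 2 q f := eq_neg_of_add_eq_zero_left a2
  rw [a3, heckeU_neg] at a1
  have a4 := eq_neg_of_add_eq_zero_left a1
  rw [neg_neg] at a4
  exact a4.symm

/-- **Block NEW from its leaves.** -/
theorem new_of (h1 : Spec.NewEigenformOfUsqStatement) (h2 : Spec.NewPeriodTraceStatement)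
    (h3a : Spec.NewInvolutionStatement) (h3b : Spec.NewInvolutionHeckeStatement)
    (h3c : Spec.NewTransferAddStatement) : Spec.NewStatement := by
  intro N q hN hq hqN P b φ hφpar hφ0 hT ht1 ht2
  haveI : NeZero N := ⟨hN⟩
  haveI : NeZero (N * q) := ⟨Nat.mul_ne_zero hN hq.ne_zero⟩
  obtain ⟨hinj, hrange⟩ := Fermat.Agent.S21.main (N * q)
  obtain ⟨hinjN, -⟩ := Fermat.Agent.S21.main N
  have hφr : φ ∈ LinearMap.range (periodHomPair (N * q)) := by rw [hrange]; exact hφpar
  obtain ⟨⟨f₁, f₂⟩, hpair⟩ := hφr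
  -- the traces of `f₁`, `f₂`
  obtain ⟨W₁, g₁, g₁', hg₁, hg₁', hP₁, hP₁'⟩ := h2 N q hN hq hqN f₁
  obtain ⟨W₂, g₂, g₂', hg₂, hg₂', hP₂, hP₂'⟩ := h2 N q hN hq hqN f₂
  have e1 : periodHomPair N (g₁, g₂) = 0 := by
    rw [← pair_transport (Spec.t₁ N q) (fun a b => (h3c N q a b).1)
      (fun a => (h3a N q hN hq hqN a).1) f₁ f₂ g₁ g₂ hP₁.symm hP₂.symm, hpair, ht1]
  have e2 : periodHomPair N (g₁', g₂') = 0 := by
    rw [← pair_transport (Spec.t₂ N q) (fun a b => (h3c N q a b).2)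
      (fun a => (h3a N q hN hq hqN a).2) f₁ f₂ g₁' g₂' hP₁'.symm hP₂'.symm, hpair, ht2]
  have z1 : (g₁, g₂) = 0 := hinjN (by rw [e1, map_zero])
  have z2 : (g₁', g₂') = 0 := hinjN (by rw [e2, map_zero])
  rw [Prod.mk_eq_zero] at z1 z2
  have u1 : heckeU 2 q (heckeU 2 q ⇑f₁) = ⇑f₁ :=
    usq_of_traces ⇑f₁ W₁ ⇑g₁ ⇑g₁' hg₁ hg₁' (by rw [z1.1]; rfl) (by rw [z2.1]; rfl)
  have u2 : heckeU 2 q (heckeU 2 q ⇑f₂) = ⇑f₂ :=
    usq_of_traces ⇑f₂ W₂ ⇑g₂ ⇑g₂' hg₂ hg₂' (by rw [z1.2]; rfl) (by rw [z2.2]; rfl)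
  -- the Hecke eigen-relations
  have eig : ∀ (l : ℕ) (hl : l.Prime) (hlM : ¬ l ∣ N * q), P l →
      CuspForm.heckeTLin 2 hl hlM f₁ = b l • f₁ ∧ CuspForm.heckeTLin 2 hl hlM f₂ = b l • f₂ := by
    intro l hl hlM hPl
    haveI : Fact l.Prime := ⟨hl⟩
    have hTl := hT l hlM hPl
    have e : periodHomPair (N * q)
        (CuspForm.heckeTLin 2 hl hlM f₁, CuspForm.heckeTLin 2 hl hlM f₂) =
        periodHomPair (N * q) (b l • (f₁, f₂)) := by
      rw [← pair_transport (heckeTransfer hlM) (heckeTransfer_add hlM) (h3b (N * q) l hlM)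
        f₁ f₂ _ _ (periodMap_heckeTLin hl hlM f₁).symm (periodMap_heckeTLin hl hlM f₂).symm,
        hpair, hTl, map_smul, hpair]
    have := hinj e
    rw [Prod.smul_mk, Prod.mk.injEq] at this
    exact this
  have hne : f₁ ≠ 0 ∨ f₂ ≠ 0 := by
    by_contra hcon
    push_neg at hcon
    apply hφ0
    rw [← hpair, hcon.1, hcon.2]
    exact map_zero _
  have hqM : q ∣ N * q := dvd_mul_left q N
  rcases hne with hf | hf
  · exact h1 (N * q) q hq hqM P b f₁ hf
      (fun l hl hlM hPl => by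
        have := congrArg (fun g : CuspForm (Gamma0 (N * q)) 2 => (⇑g : ℍ → ℂ))
          (eig l hl hlM hPl).1
        simpa using this) u1
  · exact h1 (N * q) q hq hqM P b f₂ hf
      (fun l hl hlM hPl => by
        have := congrArg (fun g : CuspForm (Gamma0 (N * q)) 2 => (⇑g : ℍ → ℂ))
          (eig l hl hlM hPl).2
        simpa using this) u2

end Fermat.Agent.S41.H881
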